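import Fermat.Agent.Chebotarev.Density
import Fermat.Agent.GaloisBasics.Galois
import Fermat.Prelude.Def_GaloisRep_Residual

/-!
# Frobenius density for the absolute Galois group of `ℚ`

* `exists_isFrobeniusAt_pow`: on a finite extension every `σ` has a power `σ ^ k`, `k` prime to
  the order of `σ`, which is a Frobenius element at an unramified prime outside a finite set.
* `exists_frobenius_map_eq_pow`: the same for a homomorphism factoring through a finite level.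
-/

set_option autoImplicit false

open NumberField Fermat.Agent.GaloisBasics
open scoped Pointwise

namespace Fermat.Agent.Chebotarev

/-- **Frobenius density** on a finite extension `L` of `ℚ` inside `ℚ̄`.  The number `m` is a
multiple of the order of `σ` on `L`. -/
theorem exists_isFrobeniusAt_pow (L : IntermediateField ℚ Qbar) [FiniteDimensional ℚ L]
    (σ : GalQ) (S : Finset ℕ) :
    ∃ p : ℕ, p.Prime ∧ p ∉ S ∧
      (∀ B : ValuationSubring Qbar, B.LiesOverPrime p → ∀ τ ∈ B.inertiaSubgroupIn ℚ,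
        ∀ x ∈ L, τ x = x) ∧
      ∃ A : ValuationSubring Qbar, A.LiesOverPrime p ∧ ∃ φ : GalQ, A.IsFrobeniusAt φ p ∧
        ∃ m k a : ℕ, 0 < m ∧ k.Coprime m ∧ (∀ x ∈ L, (σ ^ m) x = x) ∧
          (∀ x ∈ L, φ x = (σ ^ k) x) ∧ (∀ x ∈ L, σ x = (φ ^ a) x) := by
  let M : IntermediateField ℚ Qbar := IntermediateField.normalClosure ℚ L Qbar
  have hLM : L ≤ M := L.le_normalClosure
  have : NumberField M := {}
  have : Normal ℚ M := normalClosure.normal ℚ L Qbar
  have : IsGalois ℚ M := ⟨⟩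
  let r : GalQ →* (M ≃ₐ[ℚ] M) := AlgEquiv.restrictNormalHom M
  have hr : ∀ (g : GalQ) (x : M), ((r g x : M) : Qbar) = g x := fun g x =>
    AlgEquiv.restrictNormal_commutes g M x
  have hrsurj : Function.Surjective r := AlgEquiv.restrictNormalHom_surjective Qbar
  have hfix : ∀ g h : GalQ, r g = r h → ∀ x ∈ L, g x = h x := fun g h e x hx => by
    rw [← hr g ⟨x, hLM hx⟩, ← hr h ⟨x, hLM hx⟩, e]
  let ι : 𝓞 M →+* Zbar := RingOfIntegers.mapRingHom M.val
  have hι : ∀ (g : GalQ) (b : 𝓞 M), ι (r g • b) = g • ι b := fun g b =>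
    RingOfIntegers.ext (hr g (b : M))
  obtain ⟨p, hp, hpS, Q, hQ, hQu, hI, φ', hφ', hz⟩ := exists_frobenius_zpowers_eq M (r σ) S
  have hunder : ∀ B : ValuationSubring Qbar, B.LiesOverPrime p →
      ((zbarIdeal B).comap ι).under ℤ = Ideal.span {(p : ℤ)} := by
    intro B hB
    rw [← under_int_zbarIdeal hB hp]
    ext n
    simp
  refine ⟨p, hp, hpS, fun B hB τ hτ => ?_, ?_⟩
  · have h1 : r τ ∈ ((zbarIdeal B).comap ι).inertia (M ≃ₐ[ℚ] M) := fun b => by
      rw [Submodule.mem_toAddSubgroup, Ideal.mem_comap, map_sub, hι]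
      exact smul_sub_mem_zbarIdeal_of_mem_inertia hτ _
    rw [hI _ (Ideal.comap_isPrime _ _) (hunder B hB), Subgroup.mem_bot] at h1
    exact fun x hx => hfix τ 1 (by rw [h1, map_one]) x hx
  obtain ⟨A₀, hA₀⟩ := exists_liesOverPrime hp
  have : ((zbarIdeal A₀).comap ι).IsPrime := Ideal.comap_isPrime _ _
  obtain ⟨g', hg'⟩ := Algebra.IsInvariant.exists_smul_of_under_eq ℤ (𝓞 M) (M ≃ₐ[ℚ] M)
    ((zbarIdeal A₀).comap ι) Q (by rw [hQu, hunder A₀ hA₀])
  obtain ⟨g, rfl⟩ := hrsurj g'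
  have hA := liesOverPrime_smul hA₀ g
  have hmem : ∀ b ∈ Q, ι b ∈ zbarIdeal (g • A₀) := by
    intro b hb
    rw [hg', Ideal.mem_pointwise_smul_iff_inv_smul_mem, Ideal.mem_comap, ← map_inv, hι] at hb
    rwa [zbarIdeal_smul, Ideal.mem_pointwise_smul_iff_inv_smul_mem]
  obtain ⟨φ₀, hφ₀⟩ := hrsurj φ'
  obtain ⟨τ, hτ, hφ⟩ := exists_isFrobeniusAt_lift hA hp M.fixingSubgroup
    M.fixingSubgroup_isClosed φ₀ fun b hb => by
      have hbM : (b : Qbar) ∈ M := by
        rw [← InfiniteGalois.fixedField_fixingSubgroup M]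
        exact fun n => congrArg (fun y : Zbar => (y : Qbar)) (hb n.1 n.2)
      let b' : 𝓞 M := ⟨⟨b, hbM⟩, (isIntegral_algebraMap_iff (algebraMap M Qbar).injective).mp b.2⟩
      have e : ι b' = b := RingOfIntegers.ext rfl
      have := hmem _ (hφ' b')
      rwa [map_sub, map_pow, ← hφ₀, hι, e] at this
  have hrφ : r (φ₀ * τ) = φ' := by
    rw [map_mul, hφ₀, mul_eq_left]
    exact AlgEquiv.ext fun x => Subtype.ext ((hr τ x).trans (hτ x))
  refine ⟨g • A₀, hA, φ₀ * τ, hφ, orderOf (r σ), ?_⟩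
  have hfin : IsOfFinOrder (r σ) := isOfFinOrder_of_finite _
  obtain ⟨k, hk⟩ : φ' ∈ Submonoid.powers (r σ) :=
    hfin.mem_powers_iff_mem_zpowers.mpr (hz ▸ Subgroup.mem_zpowers φ')
  obtain ⟨a, ha⟩ : r σ ∈ Submonoid.powers φ' :=
    (isOfFinOrder_of_finite φ').mem_powers_iff_mem_zpowers.mpr
      (hz.symm ▸ Subgroup.mem_zpowers (r σ))
  replace hk : r σ ^ k = φ' := hk
  replace ha : φ' ^ a = r σ := ha
  refine ⟨k, a, hfin.orderOf_pos, ?_, ?_, ?_, ?_⟩
  · have horder : orderOf φ' = orderOf (r σ) := by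
      rw [← Nat.card_zpowers, ← Nat.card_zpowers, hz]
    rw [← hk, hfin.orderOf_pow] at horder
    have hgcd : (orderOf (r σ)).gcd k = 1 := by
      rcases (Nat.div_eq_self).mp horder with h | h
      · exact absurd h hfin.orderOf_pos.ne'
      · exact h
    rwa [Nat.coprime_comm]
  · exact fun x hx => hfix (σ ^ orderOf (r σ)) 1 (by rw [map_pow, pow_orderOf_eq_one, map_one]) x hx
  · exact fun x hx => hfix _ _ (by rw [hrφ, map_pow, hk]) x hx
  · exact fun x hx => hfix _ _ (by rw [map_pow, hrφ, ha]) x hx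

variable {M : Type*} [Monoid M]

/-- Elements agreeing on a finite level have the same image. -/
lemma map_eq_of_eqOn {ρ : GalQ →* M} {L : IntermediateField ℚ Qbar}
    (hρ : ∀ σ : GalQ, (∀ x ∈ L, σ x = x) → ρ σ = 1) {g h : GalQ} (e : ∀ x ∈ L, g x = h x) :
    ρ g = ρ h := by
  have : ρ (h⁻¹ * g) = 1 := hρ _ fun x hx => by
    rw [AlgEquiv.mul_apply, e x hx]
    exact h.symm_apply_apply x
  calc ρ g = ρ (h * (h⁻¹ * g)) := by rw [mul_inv_cancel_left]
    _ = ρ h := by rw [map_mul, this, mul_one]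

/-- **Frobenius density** for a homomorphism that factors through a finite level: every value
`ρ σ` has a power with exponent prime to its order which is the image of a Frobenius element at
an unramified prime outside a given finite set. -/
theorem exists_frobenius_map_eq_pow {M : Type} [Monoid M] (ρ : GalQ →* M)
    (hρ : GaloisFactorsThroughFiniteLevel ρ) (σ : GalQ) (S : Finset ℕ) :
    ∃ p : ℕ, p.Prime ∧ p ∉ S ∧
      (∀ B : ValuationSubring Qbar, B.LiesOverPrime p → ∀ τ ∈ B.inertiaSubgroupIn ℚ, ρ τ = 1) ∧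
      ∃ A : ValuationSubring Qbar, A.LiesOverPrime p ∧ ∃ φ : GalQ, A.IsFrobeniusAt φ p ∧
        ∃ k a : ℕ, k.Coprime (orderOf (ρ σ)) ∧ ρ φ = ρ σ ^ k ∧ ρ σ = ρ φ ^ a := by
  obtain ⟨L, hL, h1⟩ := hρ
  obtain ⟨p, hp, hpS, hI, A, hA, φ, hφ, m, k, a, -, hkm, hm, hk, ha⟩ :=
    exists_isFrobeniusAt_pow L σ S
  refine ⟨p, hp, hpS, fun B hB τ hτ => h1 τ (hI B hB τ hτ), A, hA, φ, hφ, k, a, ?_, ?_, ?_⟩
  · exact hkm.coprime_dvd_right (orderOf_dvd_of_pow_eq_one (by rw [← map_pow, h1 _ hm]))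
  · rw [← map_pow]; exact map_eq_of_eqOn h1 hk
  · rw [← map_pow]; exact map_eq_of_eqOn h1 ha

/-- Frobenius elements at an unramified prime have conjugate images. -/
theorem exists_map_frobenius_conj (ρ : GalQ →* M) {p : ℕ} (hp : p.Prime)
    (hI : ∀ B : ValuationSubring Qbar, B.LiesOverPrime p → ∀ τ ∈ B.inertiaSubgroupIn ℚ, ρ τ = 1)
    {A B : ValuationSubring Qbar} (hA : A.LiesOverPrime p) (hB : B.LiesOverPrime p)
    {φ ψ : GalQ} (hφ : A.IsFrobeniusAt φ p) (hψ : B.IsFrobeniusAt ψ p) :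
    ∃ g : GalQ, ρ ψ = ρ (g * φ * g⁻¹) := by
  obtain ⟨g, rfl⟩ := exists_smul_eq hA hB hp
  have h := hI _ hB _ (inv_mul_mem_inertia_of_isFrobeniusAt (isFrobeniusAt_conj hA hp hφ g) hψ)
  refine ⟨g, ?_⟩
  calc ρ ψ = ρ (g * φ * g⁻¹ * ((g * φ * g⁻¹)⁻¹ * ψ)) := by rw [mul_inv_cancel_left]
    _ = _ := by rw [map_mul, h, mul_one]

end Fermat.Agent.Chebotarev
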