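import Mathlib

/-!
# The sum over degree one primes of a number field near `s = 1`
-/

set_option autoImplicit false

open Filter Topology Asymptotics NumberField UniqueFactorizationMonoid

namespace Fermat.Agent.Chebotarev

section euler

variable {R : Type*} [CommRing R] [IsDedekindDomain R]

/-- A finite family of geometric series of prime ideals is a sum over distinct ideals. -/
lemma prod_geom_le_tsum (w : Ideal R →* ℝ) (hw : ∀ I, 0 ≤ w I)
    (hs : Summable fun I : {I : Ideal R // I ≠ ⊥} => w I) (T : Finset (Ideal R))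
    (hT : ∀ P ∈ T, Prime P) (K : ℕ) :
    ∏ P ∈ T, ∑ k ∈ Finset.range K, w P ^ k ≤ ∑' I : {I : Ideal R // I ≠ ⊥}, w I := by
  classical
  let m : (∀ P ∈ T, ℕ) → Multiset (Ideal R) := fun f =>
    ∑ P ∈ T.attach, Multiset.replicate (f P.1 P.2) P.1
  have hmprime : ∀ f, ∀ Q ∈ m f, Prime Q := by
    intro f Q hQ
    obtain ⟨P, -, hP⟩ := Multiset.mem_sum.mp hQ
    rw [Multiset.eq_of_mem_replicate hP]
    exact hT _ P.2
  have hne : ∀ f, (m f).prod ≠ (⊥ : Ideal R) := fun f =>
    Multiset.prod_ne_zero fun h => (hmprime f _ h).ne_zero rfl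
  let e : (∀ P ∈ T, ℕ) → {I : Ideal R // I ≠ ⊥} := fun f => ⟨(m f).prod, hne f⟩
  have hcount : ∀ f P (hP : P ∈ T), (m f).count P = f P hP := by
    intro f P hP
    rw [Multiset.count_sum', Finset.sum_eq_single ⟨P, hP⟩]
    · simp
    · intro b _ hb
      rw [Multiset.count_replicate, if_neg]
      exact fun h => hb (Subtype.ext h)
    · simp
  have hinj : Function.Injective e := by
    intro f g hfg
    have h : normalizedFactors (m f).prod = normalizedFactors (m g).prod :=
      congrArg normalizedFactors (congrArg Subtype.val hfg)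
    rw [normalizedFactors_prod_of_prime (hmprime f),
      normalizedFactors_prod_of_prime (hmprime g)] at h
    funext P hP
    rw [← hcount f P hP, h, hcount g P hP]
  have hwe : ∀ f, w (e f).1 = ∏ P ∈ T.attach, w P.1 ^ f P.1 P.2 := by
    intro f
    simp [e, m, Multiset.prod_sum]
  rw [Finset.prod_sum]
  calc _ = ∑ f ∈ T.pi fun _ => Finset.range K, w (e f).1 :=
        Finset.sum_congr rfl fun f _ => (hwe f).symm
    _ = ∑ I ∈ (T.pi fun _ => Finset.range K).image e, w I.1 :=
        (Finset.sum_image (f := fun I : {I : Ideal R // I ≠ ⊥} => w I.1) hinj.injOn).symm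
    _ ≤ _ := hs.sum_le_tsum _ (fun I _ => hw I)

/-- Every finite family of ideals is inside a finite product of geometric series. -/
lemma exists_sum_le_prod_geom (w : Ideal R →* ℝ) (hw : ∀ I, 0 ≤ w I)
    (S : Finset {I : Ideal R // I ≠ ⊥}) :
    ∃ (T : Finset (Ideal R)) (K : ℕ), (∀ P ∈ T, Prime P) ∧
      ∑ I ∈ S, w I.1 ≤ ∏ P ∈ T, ∑ k ∈ Finset.range K, w P ^ k := by
  classical
  let T := S.biUnion fun I => (normalizedFactors I.1).toFinset
  let K := (S.sup fun I => Multiset.card (normalizedFactors I.1)) + 1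
  refine ⟨T, K, fun P hP => ?_, ?_⟩
  · obtain ⟨I, -, hI⟩ := Finset.mem_biUnion.mp hP
    exact prime_of_normalized_factor _ (Multiset.mem_toFinset.mp hI)
  rw [Finset.prod_sum]
  let e : {I : Ideal R // I ≠ ⊥} → (∀ P ∈ T, ℕ) := fun I P _ => (normalizedFactors I.1).count P
  have hprod : ∀ I ∈ S, ∏ P ∈ T, P ^ (normalizedFactors I.1).count P = I.1 := by
    intro I hI
    rw [← Finset.prod_multiset_count_of_subset _ _
      (Finset.subset_biUnion_of_mem (fun I => (normalizedFactors I.1).toFinset) hI)]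
    exact associated_iff_eq.mp (prod_normalizedFactors I.2)
  have hinj : Set.InjOn e S := by
    intro I hI J hJ hIJ
    apply Subtype.ext
    rw [← hprod I hI, ← hprod J hJ]
    exact Finset.prod_congr rfl fun P hP => congrArg (P ^ ·) (congrFun (congrFun hIJ P) hP)
  calc ∑ I ∈ S, w I.1
      = ∑ I ∈ S, ∏ P ∈ T.attach, w P.1 ^ e I P.1 P.2 := Finset.sum_congr rfl fun I hI => by
        conv_lhs => rw [← hprod I hI]
        rw [map_prod]
        simp only [map_pow, e]
        exact (Finset.prod_attach T fun P => w P ^ (normalizedFactors I.1).count P).symm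
    _ = ∑ f ∈ S.image e, ∏ P ∈ T.attach, w P.1 ^ f P.1 P.2 :=
        (Finset.sum_image (f := fun f : (∀ P ∈ T, ℕ) => ∏ P ∈ T.attach, w P.1 ^ f P.1 P.2)
          hinj).symm
    _ ≤ _ := Finset.sum_le_sum_of_subset_of_nonneg (fun f hf => by
          obtain ⟨I, hI, rfl⟩ := Finset.mem_image.mp hf
          refine Finset.mem_pi.mpr fun P _ => Finset.mem_range.mpr (Nat.lt_succ_of_le ?_)
          exact (Multiset.count_le_card _ _).trans
            (Finset.le_sup (f := fun I : {I : Ideal R // I ≠ ⊥} =>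
              Multiset.card (normalizedFactors I.1)) hI))
        (fun f _ _ => Finset.prod_nonneg fun P _ => pow_nonneg (hw _) _)

end euler

section numberField

variable (F : Type*) [Field F] [NumberField F]

/-- The weight `N(I) ^ (-s)`. -/
noncomputable def normWeight (s : ℝ) : Ideal (𝓞 F) →* ℝ where
  toFun I := (Ideal.absNorm I : ℝ) ^ (-s)
  map_one' := by simp
  map_mul' I J := by rw [map_mul, Nat.cast_mul, Real.mul_rpow (by positivity) (by positivity)]

/-- The number of ideals with residue ring of cardinality `p`. -/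
noncomputable def degOneCount (p : ℕ) : ℕ :=
  Nat.card {P : Ideal (𝓞 F) // Nat.card (𝓞 F ⧸ P) = p}

/-- The weight of an ideal is nonnegative. -/
lemma normWeight_nonneg (s : ℝ) (I : Ideal (𝓞 F)) : 0 ≤ normWeight F s I :=
  Real.rpow_nonneg (Nat.cast_nonneg _) _

/-- The rational prime below a nonzero prime ideal. -/
lemma exists_prime_mem {P : Ideal (𝓞 F)} (hP : Prime P) :
    ∃ p : Nat.Primes, ((p : ℕ) : 𝓞 F) ∈ P ∧ (p : ℕ) ∣ Ideal.absNorm P ∧
      ∃ k, 0 < k ∧ Ideal.absNorm P = (p : ℕ) ^ k := by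
  have hPp : P.IsPrime := Ideal.isPrime_of_prime hP
  have hn0 : Ideal.absNorm P ≠ 0 := by rw [Ne, Ideal.absNorm_eq_zero_iff]; exact hP.ne_zero
  have hn1 : Ideal.absNorm P ≠ 1 := by rw [Ne, Ideal.absNorm_eq_one_iff]; exact hPp.ne_top
  have : Finite (𝓞 F ⧸ P) := Ideal.finiteQuotientOfFreeOfNeBot P hP.ne_zero
  obtain ⟨p, hc⟩ := CharP.exists (𝓞 F ⧸ P)
  have hp : p.Prime := CharP.char_is_prime (𝓞 F ⧸ P) p
  have hmem : (p : 𝓞 F) ∈ P := by
    rw [← Ideal.Quotient.eq_zero_iff_mem, map_natCast, CharP.cast_eq_zero]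
  have hdvd : Ideal.absNorm P ∣ p ^ Module.finrank ℤ (𝓞 F) := by
    have := Ideal.absNorm_dvd_absNorm_of_le ((Ideal.span_singleton_le_iff_mem P).mpr hmem)
    rwa [Ideal.absNorm_span_singleton, ← map_natCast (algebraMap ℤ (𝓞 F)),
      Algebra.norm_algebraMap_of_basis (Module.Free.chooseBasis ℤ (𝓞 F)), Int.natAbs_pow,
      Int.natAbs_natCast, ← Module.finrank_eq_card_chooseBasisIndex] at this
  obtain ⟨k, -, hk⟩ := (Nat.dvd_prime_pow hp).mp hdvd
  have hk0 : 0 < k := Nat.pos_of_ne_zero fun h => hn1 (by simpa [h] using hk)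
  exact ⟨⟨p, hp⟩, hmem, hk ▸ dvd_pow_self p hk0.ne', k, hk0, hk⟩

lemma card_primes_containing_le (T : Finset (Ideal (𝓞 F))) (hT : ∀ P ∈ T, Prime P)
    (p : Nat.Primes) (hp : ∀ P ∈ T, ((p : ℕ) : 𝓞 F) ∈ P) :
    T.card ≤ Module.finrank ℤ (𝓞 F) := by
  have hdvd : ∏ P ∈ T, P ∣ Ideal.span {((p : ℕ) : 𝓞 F)} :=
    Finset.prod_primes_dvd _ hT fun P hP => Ideal.dvd_iff_le.mpr
      ((Ideal.span_singleton_le_iff_mem _).mpr (hp P hP))
  have h := map_dvd Ideal.absNorm hdvd
  rw [map_prod, Ideal.absNorm_span_singleton, ← map_natCast (algebraMap ℤ (𝓞 F)),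
    Algebra.norm_algebraMap_of_basis (Module.Free.chooseBasis ℤ (𝓞 F)), Int.natAbs_pow,
    Int.natAbs_natCast, ← Module.finrank_eq_card_chooseBasisIndex] at h
  have hle : (p : ℕ) ^ T.card ≤ (p : ℕ) ^ Module.finrank ℤ (𝓞 F) := by
    refine le_trans ?_ (Nat.le_of_dvd (pow_pos p.2.pos _) h)
    rw [← Finset.prod_const]
    refine Finset.prod_le_prod' fun P hP => ?_
    obtain ⟨q, hq, hqd, k, hk, hN⟩ := exists_prime_mem F (hT P hP)
    have : q = p := by
      have hPp : P.IsPrime := Ideal.isPrime_of_prime (hT P hP)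
      by_contra hne
      have hco : IsCoprime ((q : ℕ) : ℤ) ((p : ℕ) : ℤ) :=
        Nat.Coprime.isCoprime ((Nat.coprime_primes q.2 p.2).mpr (Subtype.coe_injective.ne hne))
      obtain ⟨a, b, hab⟩ := hco
      refine hPp.ne_top ((Ideal.eq_top_iff_one _).mpr ?_)
      have := P.add_mem (P.mul_mem_left (a : 𝓞 F) hq) (P.mul_mem_left (b : 𝓞 F) (hp P hP))
      rwa [show (a : 𝓞 F) * ((q : ℕ) : 𝓞 F) + (b : 𝓞 F) * ((p : ℕ) : 𝓞 F) = 1 by
        exact_mod_cast congrArg (Int.cast : ℤ → 𝓞 F) hab] at this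
    subst this
    rw [hN]
    exact Nat.le_self_pow hk.ne' _
  exact (Nat.pow_le_pow_iff_right p.2.one_lt).mp hle

/-- An ideal with residue ring of prime order `p` is prime, of norm `p`, and contains `p`. -/
lemma prime_of_card_quotient {p : Nat.Primes} {P : Ideal (𝓞 F)}
    (h : Nat.card (𝓞 F ⧸ P) = p) :
    Prime P ∧ Ideal.absNorm P = p ∧ ((p : ℕ) : 𝓞 F) ∈ P := by
  have hN : Ideal.absNorm P = p := by
    rw [Ideal.absNorm_apply]; exact h
  have hP : P.IsPrime := Ideal.isPrime_of_irreducible_absNorm (hN ▸ p.2)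
  have hne : P ≠ ⊥ := fun h0 => p.2.ne_zero (by rw [← hN, h0, Ideal.absNorm_bot])
  exact ⟨Ideal.prime_of_isPrime hne hP, hN, hN ▸ Ideal.absNorm_mem P⟩

/-- At most `[F : ℚ]` primes have norm `p`. -/
lemma degOneCount_le (p : Nat.Primes) : degOneCount F p ≤ Module.finrank ℤ (𝓞 F) := by
  classical
  have hfin : {P : Ideal (𝓞 F) | Nat.card (𝓞 F ⧸ P) = p}.Finite :=
    (Ideal.finite_setOfPred_absNorm_eq (p : ℕ)).subset
      fun P hP => (prime_of_card_quotient F hP).2.1
  have hcard : degOneCount F p = hfin.toFinset.card :=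
    (Nat.card_coe_set_eq _).trans (Set.ncard_eq_toFinset_card _ hfin)
  rw [hcard]
  exact card_primes_containing_le F _
    (fun P hP => (prime_of_card_quotient F (hfin.mem_toFinset.mp hP)).1) p
    (fun P hP => (prime_of_card_quotient F (hfin.mem_toFinset.mp hP)).2.2)

/-- `∑_p a(p) p^(-s)`, where `a(p)` counts the primes of norm `p`. -/
noncomputable def degOneSum (s : ℝ) : ℝ :=
  ∑' p : Nat.Primes, (degOneCount F p : ℝ) * (p : ℝ) ^ (-s)

/-- The series of primes of prime norm converges for `s > 1`. -/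
lemma summable_degOneSum {s : ℝ} (hs : 1 < s) :
    Summable fun p : Nat.Primes => (degOneCount F p : ℝ) * (p : ℝ) ^ (-s) := by
  refine .of_nonneg_of_le (fun p => by positivity) (fun p => ?_)
    ((Nat.Primes.summable_rpow.mpr (neg_lt_neg hs)).mul_left
      (Module.finrank ℤ (𝓞 F) : ℝ))
  gcongr
  exact degOneCount_le F p

/-- A uniform bound for the primes of degree at least two and for the squares. -/
noncomputable def secondOrderBound : ℝ :=
  (Module.finrank ℤ (𝓞 F) : ℝ) * ∑' p : Nat.Primes, (p : ℝ) ^ (-2 : ℝ)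

omit [NumberField F] in
lemma secondOrderBound_nonneg : 0 ≤ secondOrderBound F :=
  mul_nonneg (Nat.cast_nonneg _) (tsum_nonneg fun _ => by positivity)

/-- The prime sum is at most `degOneSum` plus a constant, which also bounds the sum of the
squares. -/
lemma sum_normWeight_bounds {s : ℝ} (hs : 1 < s) (T : Finset (Ideal (𝓞 F)))
    (hT : ∀ P ∈ T, Prime P) :
    ∑ P ∈ T, normWeight F s P ≤ degOneSum F s + secondOrderBound F ∧
      ∑ P ∈ T, normWeight F s P ^ 2 ≤ secondOrderBound F := by
  classical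
  choose q hq hqd k hk hN using fun P : T => exists_prime_mem F (hT P.1 P.2)
  have hsum2 : ∀ U : Finset T, ∑ P ∈ U, ((q P : ℕ) : ℝ) ^ (-2 : ℝ) ≤ secondOrderBound F := by
    intro U
    rw [secondOrderBound, ← tsum_mul_left,
      ← Finset.sum_fiberwise_of_maps_to (g := q) (t := U.image q)
        fun P hP => Finset.mem_image_of_mem q hP]
    refine le_trans (Finset.sum_le_sum fun p _ => ?_) (Summable.sum_le_tsum _
      (fun p _ => by positivity) ((Nat.Primes.summable_rpow.mpr (by norm_num)).mul_left _))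
    rw [Finset.sum_congr rfl (g := fun _ => ((p : ℕ) : ℝ) ^ (-2 : ℝ))
      fun P hP => by rw [(Finset.mem_filter.mp hP).2], Finset.sum_const, nsmul_eq_mul]
    refine mul_le_mul_of_nonneg_right (Nat.cast_le.mpr ?_) (by positivity)
    have := card_primes_containing_le F ((U.filter fun P => q P = p).map ⟨_, Subtype.val_injective⟩)
      (fun P hP => by
        obtain ⟨P, -, rfl⟩ := Finset.mem_map.mp hP
        exact hT P.1 P.2) p
      (fun P hP => by
        obtain ⟨P, hP', rfl⟩ := Finset.mem_map.mp hP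
        exact (Finset.mem_filter.mp hP').2 ▸ hq P)
    rwa [Finset.card_map] at this
  have hw : ∀ P : T, normWeight F s P.1 = ((q P : ℕ) : ℝ) ^ (-(k P * s)) := fun P => by
    show (Ideal.absNorm P.1 : ℝ) ^ (-s) = _
    rw [hN P, Nat.cast_pow, ← Real.rpow_natCast, ← Real.rpow_mul (Nat.cast_nonneg _), mul_neg]
  have hq1 : ∀ P : T, (1 : ℝ) ≤ ((q P : ℕ) : ℝ) := fun P => by exact_mod_cast (q P).2.one_le
  have hk1 : ∀ P : T, (1 : ℝ) ≤ k P := fun P => Nat.one_le_cast.mpr (hk P)
  constructor
  · rw [← Finset.sum_coe_sort T, ← Finset.sum_filter_add_sum_filter_not _ fun P : T => k P = 1]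
    refine add_le_add ?_ (le_trans (Finset.sum_le_sum fun P hP => ?_) (hsum2 _))
    · rw [← Finset.sum_fiberwise_of_maps_to (g := q)
        (t := (Finset.univ.filter fun P : T => k P = 1).image q)
        fun P hP => Finset.mem_image_of_mem q hP]
      refine le_trans (Finset.sum_le_sum fun p _ => ?_) (Summable.sum_le_tsum _
        (fun p _ => by positivity) (summable_degOneSum F hs))
      rw [Finset.sum_congr rfl (g := fun _ => ((p : ℕ) : ℝ) ^ (-s)) fun P hP => by
        obtain ⟨h1, h2⟩ := Finset.mem_filter.mp hP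
        rw [hw, (Finset.mem_filter.mp h1).2, h2, Nat.cast_one, one_mul], Finset.sum_const,
        nsmul_eq_mul]
      refine mul_le_mul_of_nonneg_right (Nat.cast_le.mpr ?_) (by positivity)
      have hfin : {P : Ideal (𝓞 F) | Nat.card (𝓞 F ⧸ P) = p}.Finite :=
        (Ideal.finite_setOfPred_absNorm_eq (p : ℕ)).subset
          fun P hP => (prime_of_card_quotient F hP).2.1
      have hcard : degOneCount F p = hfin.toFinset.card :=
        (Nat.card_coe_set_eq _).trans (Set.ncard_eq_toFinset_card _ hfin)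
      rw [hcard]
      refine Finset.card_le_card_of_injOn Subtype.val (fun P hP => ?_) Subtype.val_injective.injOn
      obtain ⟨h1, h2⟩ := Finset.mem_filter.mp hP
      rw [Finset.mem_coe, Set.Finite.mem_toFinset]
      show Nat.card (𝓞 F ⧸ P.1) = p
      have h3 := hN P
      rw [(Finset.mem_filter.mp h1).2, h2, pow_one, Ideal.absNorm_apply] at h3
      exact h3
    · rw [hw]
      refine Real.rpow_le_rpow_of_exponent_le (hq1 P) (neg_le_neg ?_)
      have : 2 ≤ k P := by
        have h1 := (Finset.mem_filter.mp hP).2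
        have h2 := hk P
        omega
      have : (2 : ℝ) ≤ k P := by exact_mod_cast this
      nlinarith
  · rw [← Finset.sum_coe_sort T]
    refine le_trans (Finset.sum_le_sum fun P _ => ?_) (hsum2 _)
    rw [hw, ← Real.rpow_natCast, ← Real.rpow_mul (Nat.cast_nonneg _)]
    refine Real.rpow_le_rpow_of_exponent_le (hq1 P) ?_
    have := hk1 P
    push_cast
    nlinarith

/-- The weight of a prime ideal is at most `1 / 2` for `s > 1`. -/
lemma normWeight_le_half {s : ℝ} (hs : 1 < s) {P : Ideal (𝓞 F)} (hP : Prime P) :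
    normWeight F s P ≤ 1 / 2 := by
  obtain ⟨p, -, -, k, hk, hN⟩ := exists_prime_mem F hP
  have h2 : (2 : ℝ) ≤ Ideal.absNorm P := by
    rw [hN]
    exact_mod_cast p.2.two_le.trans (Nat.le_self_pow hk.ne' _)
  show (Ideal.absNorm P : ℝ) ^ (-s) ≤ _
  refine le_trans (Real.rpow_le_rpow_of_exponent_le (by linarith) (neg_le_neg hs.le)) ?_
  rw [Real.rpow_neg_one, one_div]
  exact inv_anti₀ two_pos h2

/-- `∑_{I ≠ 0} N(I)^(-s)`. -/
noncomputable def idealSum (s : ℝ) : ℝ :=
  ∑' I : {I : Ideal (𝓞 F) // I ≠ ⊥}, normWeight F s I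

lemma sum_normWeight_le_exp {s : ℝ} (hs : 1 < s) (S : Finset {I : Ideal (𝓞 F) // I ≠ ⊥}) :
    ∑ I ∈ S, normWeight F s I.1 ≤ Real.exp (degOneSum F s + 3 * secondOrderBound F) := by
  obtain ⟨T, K, hT, hle⟩ := exists_sum_le_prod_geom (normWeight F s) (normWeight_nonneg F s) S
  refine hle.trans ?_
  obtain ⟨h1, h2⟩ := sum_normWeight_bounds F hs T hT
  calc ∏ P ∈ T, ∑ k ∈ Finset.range K, normWeight F s P ^ k
      ≤ ∏ P ∈ T, Real.exp (normWeight F s P + 2 * normWeight F s P ^ 2) := by
        refine Finset.prod_le_prod (fun P _ => Finset.sum_nonneg fun k _ =>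
          pow_nonneg (normWeight_nonneg F s P) _) fun P hP => ?_
        have hx0 := normWeight_nonneg F s P
        have hx := normWeight_le_half F hs (hT P hP)
        refine le_trans ((summable_geometric_of_lt_one hx0 (by linarith)).sum_le_tsum _
          fun k _ => pow_nonneg hx0 k) ?_
        rw [tsum_geometric_of_lt_one hx0 (by linarith)]
        refine le_trans ?_ (Real.add_one_le_exp _)
        rw [inv_le_iff_one_le_mul₀ (by linarith)]
        nlinarith
    _ ≤ _ := by
        rw [← Real.exp_sum, Real.exp_le_exp, Finset.sum_add_distrib, ← Finset.mul_sum]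
        linarith

/-- The sum of `N(I) ^ (-s)` over nonzero ideals converges for `s > 1`. -/
lemma summable_normWeight {s : ℝ} (hs : 1 < s) :
    Summable fun I : {I : Ideal (𝓞 F) // I ≠ ⊥} => normWeight F s I :=
  summable_of_sum_le (fun _ => normWeight_nonneg F s _) (sum_normWeight_le_exp F hs)

lemma idealSum_bounds {s : ℝ} (hs : 1 < s) :
    degOneSum F s ≤ Real.log (idealSum F s) ∧
      Real.log (idealSum F s) ≤ degOneSum F s + 3 * secondOrderBound F := by
  classical
  have hpos : 0 < idealSum F s := by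
    refine (summable_normWeight F hs).tsum_pos (fun _ => normWeight_nonneg F s _) ⟨⊤, top_ne_bot⟩ ?_
    show 0 < normWeight F s ⊤
    rw [← Ideal.one_eq_top, map_one]
    exact one_pos
  refine ⟨(summable_degOneSum F hs).tsum_le_of_sum_le fun U => ?_, ?_⟩
  · have hfin : ∀ p : Nat.Primes, {P : Ideal (𝓞 F) | Nat.card (𝓞 F ⧸ P) = p}.Finite := fun p =>
      (Ideal.finite_setOfPred_absNorm_eq (p : ℕ)).subset
        fun P hP => (prime_of_card_quotient F hP).2.1
    let T := U.biUnion fun p => (hfin p).toFinset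
    have hT : ∀ P ∈ T, Prime P := fun P hP => by
      obtain ⟨p, -, hp⟩ := Finset.mem_biUnion.mp hP
      exact (prime_of_card_quotient F ((hfin p).mem_toFinset.mp hp)).1
    have hsum : ∑ p ∈ U, (degOneCount F p : ℝ) * (p : ℝ) ^ (-s) =
        ∑ P ∈ T, normWeight F s P := by
      rw [Finset.sum_biUnion]
      · refine Finset.sum_congr rfl fun p _ => ?_
        rw [Finset.sum_congr rfl (g := fun _ => ((p : ℕ) : ℝ) ^ (-s)) fun P hP => by
          show (Ideal.absNorm P : ℝ) ^ (-s) = _
          rw [(prime_of_card_quotient F ((hfin p).mem_toFinset.mp hP)).2.1],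
          Finset.sum_const, nsmul_eq_mul,
          show degOneCount F p = (hfin p).toFinset.card from
            (Nat.card_coe_set_eq _).trans (Set.ncard_eq_toFinset_card _ (hfin p))]
      · intro p _ p' _ hne
        rw [Function.onFun, Finset.disjoint_left]
        intro P hP hP'
        rw [Set.Finite.mem_toFinset, Set.mem_ofPred_eq] at hP hP'
        exact hne (Subtype.ext (hP.symm.trans hP'))
    rw [hsum, Real.le_log_iff_exp_le hpos, Real.exp_sum]
    refine le_trans (Finset.prod_le_prod (fun P _ => (Real.exp_pos _).le) fun P hP => ?_)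
      (le_of_tendsto (tendsto_finsetProd T fun P hP =>
        (hasSum_geometric_of_lt_one (normWeight_nonneg F s P)
          (by linarith [normWeight_le_half F hs (hT P hP)])).tendsto_sum_nat)
        (Eventually.of_forall fun K =>
          prod_geom_le_tsum _ (normWeight_nonneg F s) (summable_normWeight F hs) T hT K))
    have hx := normWeight_le_half F hs (hT P hP)
    rw [le_inv_comm₀ (Real.exp_pos _) (by linarith), ← Real.exp_neg]
    linarith [Real.add_one_le_exp (-normWeight F s P)]
  · rw [Real.log_le_iff_le_exp hpos]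
    exact (summable_normWeight F hs).tsum_le_of_sum_le (sum_normWeight_le_exp F hs)

lemma dedekindZeta_eq_idealSum {s : ℝ} (hs : 1 < s) :
    dedekindZeta F s = (idealSum F s : ℂ) := by
  have h := (summable_normWeight F hs).hasSum.tsum_fiberwise
    fun I : {I : Ideal (𝓞 F) // I ≠ ⊥} => Ideal.absNorm I.1
  rw [dedekindZeta, LSeries, idealSum, ← h.tsum_eq, Complex.ofReal_tsum]
  refine tsum_congr fun n => ?_
  have hbij : Nat.card ↑((fun I : {I : Ideal (𝓞 F) // I ≠ ⊥} => Ideal.absNorm I.1) ⁻¹' {n}) =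
      if n = 0 then 0 else Nat.card {I : Ideal (𝓞 F) // Ideal.absNorm I = n} := by
    split_ifs with hn
    · rw [Nat.card_eq_zero]
      left
      refine ⟨fun I => I.1.2 (Ideal.absNorm_eq_zero_iff.mp ?_)⟩
      exact I.2.trans hn
    · exact Nat.card_congr
        { toFun := fun I => ⟨I.1.1, I.2⟩
          invFun := fun I => ⟨⟨I.1, fun h => hn (by rw [← I.2, h, Ideal.absNorm_bot])⟩, I.2⟩
          left_inv := fun I => rfl
          right_inv := fun I => rfl }
  rw [tsum_congr (g := fun _ => (n : ℝ) ^ (-s)) (fun I => by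
    show (Ideal.absNorm I.1.1 : ℝ) ^ (-s) = _
    rw [show Ideal.absNorm I.1.1 = n from I.2]), tsum_const, hbij, nsmul_eq_mul]
  rcases eq_or_ne n 0 with rfl | hn
  · simp
  · rw [LSeries.term_of_ne_zero hn, if_neg hn, Complex.ofReal_mul, Complex.ofReal_natCast,
      Complex.ofReal_cpow (Nat.cast_nonneg n), Complex.ofReal_natCast, Complex.ofReal_neg,
      Complex.cpow_neg, div_eq_mul_inv]

/-- **The degree one primes of a number field have density one.** -/
theorem degOneSum_isBigO :
    (fun s : ℝ => degOneSum F s - Real.log (s - 1)⁻¹) =O[𝓝[>] (1 : ℝ)] fun _ => (1 : ℝ) := by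
  have hlim : Tendsto (fun s : ℝ => Real.log (idealSum F s) - Real.log (s - 1)⁻¹) (𝓝[>] (1 : ℝ))
      (𝓝 (Real.log (dedekindZeta_residue F))) := by
    have h1 := (Complex.continuous_re.tendsto _).comp (tendsto_sub_one_mul_dedekindZeta_nhdsGT F)
    rw [Complex.ofReal_re] at h1
    refine ((Real.continuousAt_log (dedekindZeta_residue_ne_zero F)).tendsto.comp h1).congr' ?_
    filter_upwards [self_mem_nhdsWithin,
      h1.eventually (eventually_ne_nhds (dedekindZeta_residue_ne_zero F))] with s hs hne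
    simp only [Function.comp_apply] at hne ⊢
    rw [dedekindZeta_eq_idealSum F hs, ← Complex.ofReal_one, ← Complex.ofReal_sub,
      ← Complex.ofReal_mul, Complex.ofReal_re] at hne ⊢
    obtain ⟨hs1, hI⟩ := mul_ne_zero_iff.mp hne
    rw [Real.log_mul hs1 hI, Real.log_inv]
    ring
  have hbd : (fun s : ℝ => degOneSum F s - Real.log (idealSum F s)) =O[𝓝[>] (1 : ℝ)]
      fun _ => (1 : ℝ) := by
    refine IsBigO.of_bound (3 * secondOrderBound F) ?_
    filter_upwards [self_mem_nhdsWithin] with s hs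
    obtain ⟨h1, h2⟩ := idealSum_bounds F hs
    rw [Real.norm_eq_abs, norm_one, mul_one, abs_le]
    constructor <;> linarith [secondOrderBound_nonneg F]
  exact (hbd.add (hlim.isBigO_one ℝ)).congr_left fun s => by ring

end numberField

end Fermat.Agent.Chebotarev
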