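import Fermat.Agent.Chebotarev.Galois
import Fermat.Agent.Chebotarev.PrimeSum

/-!
# The Frobenius density theorem for a finite Galois extension of `ℚ`
-/

set_option autoImplicit false

open Filter Topology Asymptotics NumberField
open scoped Pointwise

namespace Fermat.Agent.Chebotarev

variable (L : Type*) [Field L] [NumberField L] [IsGalois ℚ L]


section fixedField

variable (H : Subgroup (L ≃ₐ[ℚ] L))

omit [IsGalois ℚ L] in
lemma smul_algebraMap_fixedField (h : H) (a : 𝓞 (IntermediateField.fixedField H)) :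
    h • algebraMap (𝓞 (IntermediateField.fixedField H)) (𝓞 L) a =
      algebraMap (𝓞 (IntermediateField.fixedField H)) (𝓞 L) a :=
  RingOfIntegers.ext (a.1.2 h)

omit [IsGalois ℚ L] in
/-- The action of `H` on `𝓞 L` is linear over the integers of its fixed field. -/
lemma smulCommClass_fixedField :
    SMulCommClass H (𝓞 (IntermediateField.fixedField H)) (𝓞 L) := by
  refine ⟨fun h a x => ?_⟩
  rw [Algebra.smul_def, Algebra.smul_def, smul_mul', smul_algebraMap_fixedField]

omit [IsGalois ℚ L] in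
/-- The `H`-invariants of `𝓞 L` are the integers of the fixed field of `H`. -/
lemma isInvariant_fixedField :
    Algebra.IsInvariant (𝓞 (IntermediateField.fixedField H)) (𝓞 L) H := by
  refine ⟨fun b hb => ?_⟩
  have hmem : (b : L) ∈ IntermediateField.fixedField H := fun h => by
    have := congrArg (fun x : 𝓞 L => (x : L)) (hb h)
    exact this
  refine ⟨⟨⟨(b : L), hmem⟩, ?_⟩, RingOfIntegers.ext rfl⟩
  exact (isIntegral_algebraMap_iff (algebraMap (IntermediateField.fixedField H) L).injective).mp b.2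

end fixedField

omit [IsGalois ℚ L] in
/-- The Galois group acts faithfully on the ring of integers. -/
lemma faithfulSMul_ringOfIntegers : FaithfulSMul (L ≃ₐ[ℚ] L) (𝓞 L) := by
  refine ⟨fun {g g'} h => AlgEquiv.ext fun x => ?_⟩
  obtain ⟨a, b, -, rfl⟩ := IsFractionRing.div_surjective (𝓞 L) x
  have key : ∀ c : 𝓞 L, g (algebraMap (𝓞 L) L c) = g' (algebraMap (𝓞 L) L c) := fun c =>
    congrArg (fun y : 𝓞 L => (y : L)) (h c)
  rw [map_div₀, map_div₀, key, key]

/-- At every prime there is a place with a Frobenius element. -/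
lemma exists_prime_isFrobMod (p : Nat.Primes) :
    ∃ (Q : Ideal (𝓞 L)) (φ : (L ≃ₐ[ℚ] L)), Q.IsPrime ∧ Q.under ℤ = Ideal.span {((p : ℕ) : ℤ)} ∧
      IsFrobMod (p : ℕ) φ Q := by
  have hmax : (Ideal.span {((p : ℕ) : ℤ)}).IsMaximal :=
    PrincipalIdealRing.isMaximal_of_irreducible (Nat.prime_iff_prime_int.mp p.2).irreducible
  obtain ⟨Q, -, hQ, hQu⟩ := Ideal.exists_ideal_over_prime_of_isIntegral
    (Ideal.span {((p : ℕ) : ℤ)}) (⊥ : Ideal (𝓞 L))
    (by rw [Ideal.comap_bot_of_injective _ (algebraMap ℤ (𝓞 L)).injective_int]; exact bot_le)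
  have hne : Q ≠ ⊥ := by
    intro h
    rw [h, Ideal.comap_bot_of_injective _ (algebraMap ℤ (𝓞 L)).injective_int, eq_comm,
      Ideal.span_singleton_eq_bot] at hQu
    exact p.2.ne_zero (by exact_mod_cast hQu)
  have : Finite (𝓞 L ⧸ Q) := Ideal.finiteQuotientOfFreeOfNeBot Q hne
  obtain ⟨φ, hφ⟩ := exists_isFrobMod (G := (L ≃ₐ[ℚ] L)) (p : ℕ) Q hQu
  exact ⟨Q, φ, hQ, hQu, hφ⟩

/-- A chosen Frobenius element at `p`. -/
noncomputable def someFrob (p : Nat.Primes) : (L ≃ₐ[ℚ] L) :=
  (exists_prime_isFrobMod L p).choose_spec.choose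

/-- The number of conjugations taking the Frobenius at `p` to a generator of `D`. -/
noncomputable def genCount (D : Subgroup (L ≃ₐ[ℚ] L)) (p : Nat.Primes) : ℕ :=
  Nat.card {g : (L ≃ₐ[ℚ] L) // Subgroup.zpowers (g * someFrob L p * g⁻¹) = D}

/-- The number of generators of `D`. -/
noncomputable def numGen (D : Subgroup (L ≃ₐ[ℚ] L)) : ℕ :=
  Nat.card {g : (L ≃ₐ[ℚ] L) // Subgroup.zpowers g = D}

/-- `∑_p genCount(p) p^(-s)`. -/
noncomputable def genSum (D : Subgroup (L ≃ₐ[ℚ] L)) (s : ℝ) : ℝ :=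
  ∑' p : Nat.Primes, (genCount L D p : ℝ) * (p : ℝ) ^ (-s)

lemma genCount_le (D : Subgroup (L ≃ₐ[ℚ] L)) (p : Nat.Primes) :
    genCount L D p ≤ Nat.card (L ≃ₐ[ℚ] L) :=
  Nat.card_le_card_of_injective Subtype.val Subtype.val_injective

lemma summable_genSum (D : Subgroup (L ≃ₐ[ℚ] L)) {s : ℝ} (hs : 1 < s) :
    Summable fun p : Nat.Primes => (genCount L D p : ℝ) * (p : ℝ) ^ (-s) := by
  refine .of_nonneg_of_le (fun p => by positivity) (fun p => ?_)
    ((Nat.Primes.summable_rpow.mpr (neg_lt_neg hs)).mul_left (Nat.card (L ≃ₐ[ℚ] L) : ℝ))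
  gcongr
  exact genCount_le L D p

lemma sum_card_fiber_le {α β : Type*} [Fintype α] [Fintype β] [Preorder β] (f : α → β) (b : β)
    [DecidablePred (· ≤ b)] :
    ∑ c ∈ Finset.univ.filter (· ≤ b), Nat.card {a : α // f a = c} =
      Nat.card {a : α // f a ≤ b} := by
  classical
  simp only [Nat.card_eq_fintype_card, Fintype.card_subtype]
  rw [Finset.card_eq_sum_card_fiberwise (f := f) (t := Finset.univ.filter (· ≤ b))
    (fun a ha => by simpa using ha)]
  refine Finset.sum_congr rfl fun c hc => congrArg Finset.card (Finset.ext fun a => ?_)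
  simp only [Finset.mem_filter, Finset.mem_univ, true_and] at hc ⊢
  exact ⟨fun h => ⟨h ▸ hc, h⟩, fun h => h.2⟩

/-- **Frobenius density theorem**, asymptotic form. -/
theorem genSum_isBigO (D : Subgroup (L ≃ₐ[ℚ] L)) :
    (fun s : ℝ => genSum L D s - numGen L D * Real.log (s - 1)⁻¹) =O[𝓝[>] (1 : ℝ)]
      fun _ => (1 : ℝ) := by
  classical
  have := Fintype.ofFinite (L ≃ₐ[ℚ] L)
  have := Fintype.ofFinite (Subgroup (L ≃ₐ[ℚ] L))
  refine (wellFounded_lt (α := Subgroup (L ≃ₐ[ℚ] L))).induction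
    (C := fun D => (fun s : ℝ => genSum L D s - numGen L D * Real.log (s - 1)⁻¹)
      =O[𝓝[>] (1 : ℝ)] fun _ => (1 : ℝ)) D fun H ih => ?_
  have := smulCommClass_fixedField L H
  have := isInvariant_fixedField L H
  set F := IntermediateField.fixedField H with hF
  have := faithfulSMul_ringOfIntegers L
  obtain ⟨d, hd, hgood⟩ := exists_ne_zero_inertia_eq_bot (B := 𝓞 L) (G := (L ≃ₐ[ℚ] L))
  have hconj : ∀ p : Nat.Primes, ¬ (p : ℕ) ∣ d →
      ∑ D' ∈ Finset.univ.filter (· ≤ H), genCount L D' p =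
        Nat.card H * degOneCount F p := by
    intro p hp
    set Q := (exists_prime_isFrobMod L p).choose
    have : Q.IsPrime := (exists_prime_isFrobMod L p).choose_spec.choose_spec.1
    obtain ⟨-, hQu, hφ⟩ := (exists_prime_isFrobMod L p).choose_spec.choose_spec
    have : Fact (p : ℕ).Prime := ⟨p.2⟩
    refine (sum_card_fiber_le
      (fun g : (L ≃ₐ[ℚ] L) => Subgroup.zpowers (g * someFrob L p * g⁻¹)) H).trans ?_
    rw [Nat.card_congr (Equiv.subtypeEquivRight fun g => Subgroup.zpowers_le), degOneCount]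
    refine card_conj_mem_eq H ?_ hQu (fun Q' hQ' hu => ?_) (hgood p p.2 hp) hφ
    · exact FaithfulSMul.algebraMap_injective _ _
    · refine Ideal.finiteQuotientOfFreeOfNeBot Q' fun h => p.2.ne_zero ?_
      rw [h, Ideal.under_def, Ideal.comap_bot_of_injective _ (algebraMap ℤ (𝓞 L)).injective_int,
        eq_comm, Ideal.span_singleton_eq_bot] at hu
      exact_mod_cast hu
  have htot : (fun s : ℝ => (∑ D' ∈ Finset.univ.filter (· ≤ H), genSum L D' s) -
      Nat.card H * degOneSum F s) =O[𝓝[>] (1 : ℝ)] fun _ => (1 : ℝ) := by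
    let T : Finset Nat.Primes :=
      ((Nat.divisors d).filter Nat.Prime).subtype Nat.Prime
    let e : Nat.Primes → ℝ := fun p =>
      (∑ D' ∈ Finset.univ.filter (· ≤ H), (genCount L D' p : ℝ)) -
        Nat.card H * degOneCount F p
    refine IsBigO.of_bound (∑ p ∈ T, |e p|) ?_
    filter_upwards [self_mem_nhdsWithin] with s hs
    rw [norm_one, mul_one, Real.norm_eq_abs]
    have heq : (∑ D' ∈ Finset.univ.filter (· ≤ H), genSum L D' s) -
        Nat.card H * degOneSum F s = ∑ p ∈ T, e p * (p : ℝ) ^ (-s) := by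
      unfold genSum degOneSum
      rw [← Summable.tsum_finsetSum (fun D' _ => summable_genSum L D' hs), ← tsum_mul_left,
        ← Summable.tsum_sub (summable_sum fun D' _ => summable_genSum L D' hs)
          ((summable_degOneSum F hs).mul_left _)]
      refine (tsum_congr fun p => ?_).trans (tsum_eq_sum (s := T) fun p hp => ?_)
      · rw [← Finset.sum_mul, ← mul_assoc, ← sub_mul]
      · have hpd : ¬ (p : ℕ) ∣ d := fun h => hp (Finset.mem_subtype.mpr
          (Finset.mem_filter.mpr ⟨Nat.mem_divisors.mpr ⟨h, hd⟩, p.2⟩))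
        rw [show e p = 0 by
          simp only [e]; rw [sub_eq_zero]; exact_mod_cast hconj p hpd, zero_mul]
    rw [heq]
    refine (Finset.abs_sum_le_sum_abs _ _).trans (Finset.sum_le_sum fun p _ => ?_)
    rw [abs_mul]
    refine mul_le_of_le_one_right (abs_nonneg _) ?_
    rw [abs_of_nonneg (by positivity)]
    refine Real.rpow_le_one_of_one_le_of_nonpos (by exact_mod_cast p.2.one_le) ?_
    have : (1 : ℝ) < s := hs
    linarith
  have hlt : (fun s : ℝ => ∑ D' ∈ Finset.univ.filter (· < H),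
      (genSum L D' s - numGen L D' * Real.log (s - 1)⁻¹)) =O[𝓝[>] (1 : ℝ)] fun _ => (1 : ℝ) :=
    IsBigO.fun_sum fun D' hD' => ih D' (Finset.mem_filter.mp hD').2
  have hH : ∑ D' ∈ Finset.univ.filter (· ≤ H), numGen L D' = Nat.card H := by
    refine (sum_card_fiber_le (Subgroup.zpowers : (L ≃ₐ[ℚ] L) → Subgroup (L ≃ₐ[ℚ] L)) H).trans ?_
    exact Nat.card_congr (Equiv.subtypeEquivRight fun g => Subgroup.zpowers_le)
  have hins : Finset.univ.filter (· ≤ H) = insert H (Finset.univ.filter (· < H)) := by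
    ext D'; simp [le_iff_eq_or_lt]
  refine ((htot.add ((degOneSum_isBigO F).const_mul_left (Nat.card H : ℝ))).sub hlt).congr_left
    fun s => ?_
  rw [hins, Finset.sum_insert (by simp)] at hH ⊢
  rw [← hH, Finset.sum_sub_distrib, ← Finset.sum_mul]
  push_cast
  ring

/-- **Frobenius density theorem**: every cyclic subgroup of `Gal(L/ℚ)` is generated by the
Frobenius at some (unramified) prime outside any given finite set. -/
theorem exists_frobenius_zpowers_eq (σ : (L ≃ₐ[ℚ] L)) (S : Finset ℕ) :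
    ∃ p : ℕ, p.Prime ∧ p ∉ S ∧ ∃ Q : Ideal (𝓞 L), Q.IsPrime ∧
      Q.under ℤ = Ideal.span {(p : ℤ)} ∧
      (∀ Q' : Ideal (𝓞 L), Q'.IsPrime → Q'.under ℤ = Ideal.span {(p : ℤ)} →
        Q'.inertia (L ≃ₐ[ℚ] L) = ⊥) ∧
      ∃ φ : (L ≃ₐ[ℚ] L), IsFrobMod p φ Q ∧ Subgroup.zpowers φ = Subgroup.zpowers σ := by
  classical
  have := faithfulSMul_ringOfIntegers L
  obtain ⟨d, hd, hgood⟩ := exists_ne_zero_inertia_eq_bot (B := 𝓞 L) (G := (L ≃ₐ[ℚ] L))
  let T : Finset Nat.Primes := ((S ∪ Nat.divisors d).filter Nat.Prime).subtype Nat.Prime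
  suffices ∃ p : Nat.Primes, p ∉ T ∧ genCount L (Subgroup.zpowers σ) p ≠ 0 by
    obtain ⟨p, hpT, hp0⟩ := this
    have hpS : (p : ℕ) ∉ S ∧ ¬ (p : ℕ) ∣ d := by
      constructor
      · exact fun h => hpT (Finset.mem_subtype.mpr
          (Finset.mem_filter.mpr ⟨Finset.mem_union_left _ h, p.2⟩))
      · exact fun h => hpT (Finset.mem_subtype.mpr (Finset.mem_filter.mpr
          ⟨Finset.mem_union_right _ (Nat.mem_divisors.mpr ⟨h, hd⟩), p.2⟩))
    obtain ⟨⟨g, hg⟩⟩ := (Nat.card_ne_zero.mp hp0).1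
    obtain ⟨hQp, hQu, hφ⟩ := (exists_prime_isFrobMod L p).choose_spec.choose_spec
    set Q := (exists_prime_isFrobMod L p).choose
    refine ⟨p, p.2, hpS.1, g • Q, inferInstance, ?_, hgood p p.2 hpS.2, _, hφ.conj g, hg⟩
    rw [← hQu]
    ext n
    simp
  by_contra! hcon
  set D := Subgroup.zpowers σ
  have hpos : (0 : ℝ) < numGen L D := by
    rw [Nat.cast_pos]
    exact Nat.card_pos_iff.mpr ⟨⟨⟨σ, rfl⟩⟩, inferInstance⟩
  have hlog : Tendsto (fun s : ℝ => (numGen L D : ℝ) * Real.log (s - 1)⁻¹)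
      (𝓝[>] (1 : ℝ)) atTop := by
    refine Tendsto.const_mul_atTop hpos
      (Real.tendsto_log_atTop.comp (tendsto_inv_nhdsGT_zero.comp ?_))
    refine tendsto_nhdsWithin_iff.mpr ⟨?_, ?_⟩
    · exact tendsto_nhdsWithin_of_tendsto_nhds (Continuous.tendsto' (by fun_prop) _ _ (sub_self 1))
    · filter_upwards [self_mem_nhdsWithin] with s hs
      exact sub_pos.mpr (show (1 : ℝ) < s from hs)
  obtain ⟨C, hC⟩ := (genSum_isBigO L D).bound
  set B : ℝ := ∑ p ∈ T, (genCount L D p : ℝ) with hB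
  have key : ∀ᶠ s : ℝ in 𝓝[>] (1 : ℝ), (numGen L D : ℝ) * Real.log (s - 1)⁻¹ ≤ B + C := by
    filter_upwards [hC, self_mem_nhdsWithin] with s hs hs1
    rw [norm_one, mul_one, Real.norm_eq_abs] at hs
    have hle : genSum L D s ≤ B := by
      unfold genSum
      rw [tsum_eq_sum (s := T) fun p hp => by rw [hcon p hp, Nat.cast_zero, zero_mul]]
      refine Finset.sum_le_sum fun p _ => mul_le_of_le_one_right (Nat.cast_nonneg _) ?_
      refine Real.rpow_le_one_of_one_le_of_nonpos (by exact_mod_cast p.2.one_le) ?_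
      have : (1 : ℝ) < s := hs1
      linarith
    linarith [(abs_le.mp hs).1]
  obtain ⟨s, h1, h2⟩ := ((hlog.eventually_gt_atTop (B + C)).and key).exists
  exact absurd h2 (not_le.mpr h1)

end Fermat.Agent.Chebotarev
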