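import Mathlib.Data.ZMod.QuotientRing
import Mathlib.RingTheory.Frobenius
import Mathlib.Tactic

/-!
# Degree one primes and Frobenius elements

Let a finite group `G` act on `B` with invariants `ℤ`, let `H ≤ G` and let `A` be the invariants
of `H`.  For a prime number `p` which is unramified in `B` with Frobenius `φ` at `Q`,
`#{g | g φ g⁻¹ ∈ H} = #H * #{P ⊆ A | #(A ⧸ P) = p}`.
-/

set_option autoImplicit false

open scoped Pointwise

namespace Fermat.Agent.Chebotarev

section setting

variable {B : Type*} [CommRing B] {G : Type*} [Group G] [MulSemiringAction G B]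

/-- `φ` is a Frobenius element for `p` at `Q`, trivial inertia not required. -/
def IsFrobMod (p : ℕ) (φ : G) (Q : Ideal B) : Prop :=
  ∀ x : B, φ • x - x ^ p ∈ Q

/-- The conjugate of a Frobenius element is a Frobenius element at the conjugate ideal. -/
lemma IsFrobMod.conj {p : ℕ} {φ : G} {Q : Ideal B} (h : IsFrobMod p φ Q) (g : G) :
    IsFrobMod p (g * φ * g⁻¹) (g • Q) := by
  intro x
  have := Ideal.smul_mem_pointwise_smul g _ Q (h (g⁻¹ • x))
  simpa [smul_sub, smul_pow', mul_smul] using this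

/-- The Frobenius element is unique when the inertia group is trivial. -/
lemma IsFrobMod.eq_of_inertia {p : ℕ} {φ ψ : G} {Q : Ideal B} (h : IsFrobMod p φ Q)
    (h' : IsFrobMod p ψ Q) (hQ : Q.inertia G = ⊥) : φ = ψ := by
  have : φ * ψ⁻¹ ∈ Q.inertia G := fun x => by
    simpa [mul_smul] using Q.sub_mem (h (ψ⁻¹ • x)) (h' (ψ⁻¹ • x))
  rwa [hQ, Subgroup.mem_bot, mul_inv_eq_one] at this

/-- `ℤ / pℤ` has `p` elements. -/
lemma card_quotient_span_natCast (p : ℕ) :
    Nat.card (ℤ ⧸ (Ideal.span {(p : ℤ)})) = p := by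
  rw [Nat.card_congr (Int.quotientSpanNatEquivZMod p).toEquiv, Nat.card_zmod]

/-- A Frobenius element exists at each prime over `p` with finite residue field. -/
lemma exists_isFrobMod [Finite G] [SMulCommClass G ℤ B] [Algebra.IsInvariant ℤ B G]
    (p : ℕ) (Q : Ideal B) [Q.IsPrime] [Finite (B ⧸ Q)]
    (hQ : Q.under ℤ = Ideal.span {(p : ℤ)}) : ∃ φ : G, IsFrobMod p φ Q := by
  obtain ⟨φ, hφ⟩ := IsArithFrobAt.exists_of_isInvariant (R := ℤ) (G := G) (Q := Q)
  refine ⟨φ, fun x => ?_⟩
  have := hφ x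
  rwa [hQ, card_quotient_span_natCast] at this

end setting

section invariants

variable {B : Type*} [CommRing B] {G : Type*} [Group G] [MulSemiringAction G B] [Finite G]
variable {A : Type*} [CommRing A] [Algebra A B] (H : Subgroup G)
  [SMulCommClass H A B] [Algebra.IsInvariant A B H]
variable {p : ℕ} [hp : Fact p.Prime]

/-- `a ↦ (a : A ⧸ P)` from `ℤ` is surjective when the residue ring has `p` elements. -/
lemma exists_intCast_sub_mem {P : Ideal A} (hP : Nat.card (A ⧸ P) = p) (a : A) :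
    ∃ n : ℤ, a - n ∈ P := by
  have : Finite (A ⧸ P) := Nat.finite_of_card_ne_zero (hP ▸ hp.out.ne_zero)
  have hchar : CharP (A ⧸ P) p := by
    have : Nontrivial (A ⧸ P) := Finite.one_lt_card_iff_nontrivial.mp (hP ▸ hp.out.one_lt)
    apply (CharP.charP_iff_prime_eq_zero hp.out).mpr
    have := Fintype.ofFinite (A ⧸ P)
    rw [← hP, Nat.card_eq_fintype_card]
    exact Nat.cast_card_eq_zero _
  have hbij : Function.Bijective (ZMod.castHom (dvd_refl p) (A ⧸ P)) :=
    (Nat.bijective_iff_injective_and_card _).mpr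
      ⟨ZMod.castHom_injective _, by rw [Nat.card_zmod, hP]⟩
  obtain ⟨z, hz⟩ := hbij.2 (Ideal.Quotient.mk P a)
  obtain ⟨n, rfl⟩ := ZMod.intCast_surjective z
  refine ⟨n, Ideal.Quotient.eq.mp ?_⟩
  rw [← hz, map_intCast, map_intCast]

lemma isPrime_of_card_eq {P : Ideal A} (hP : Nat.card (A ⧸ P) = p) :
    P.IsPrime ∧ P.under ℤ = Ideal.span {(p : ℤ)} := by
  have : Finite (A ⧸ P) := Nat.finite_of_card_ne_zero (hP ▸ hp.out.ne_zero)
  have hne : P ≠ ⊤ := by
    intro h
    subst h
    have : Subsingleton (A ⧸ (⊤ : Ideal A)) := Ideal.Quotient.subsingleton_iff.mpr rfl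
    simp at hP
    exact hp.out.one_lt.ne hP
  have hmem : (p : ℤ) ∈ P.under ℤ := by
    have := Fintype.ofFinite (A ⧸ P)
    rw [Ideal.mem_comap, map_natCast, ← Ideal.Quotient.eq_zero_iff_mem, map_natCast, ← hP,
      Nat.card_eq_fintype_card]
    exact Nat.cast_card_eq_zero _
  have hspan : P.under ℤ = Ideal.span {(p : ℤ)} := by
    refine ((PrincipalIdealRing.isMaximal_of_irreducible
      (Nat.prime_iff_prime_int.mp hp.out).irreducible).eq_of_le ?_ ?_).symm
    · exact Ideal.comap_ne_top _ hne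
    · rwa [Ideal.span_singleton_le_iff_mem]
  refine ⟨⟨hne, fun {x y} hxy => ?_⟩, hspan⟩
  obtain ⟨m, hm⟩ := exists_intCast_sub_mem hP x
  obtain ⟨n, hn⟩ := exists_intCast_sub_mem hP y
  have hmn : ((m * n : ℤ) : A) ∈ P := by
    have h1 := P.sub_mem hxy (P.add_mem (P.mul_mem_right y hm) (P.mul_mem_left (m : A) hn))
    have e : x * y - ((x - (m : A)) * y + (m : A) * (y - (n : A))) = ((m * n : ℤ) : A) := by
      push_cast; ring
    rwa [e] at h1
  have hmn' : m * n ∈ P.under ℤ := by simpa using hmn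
  rw [hspan, Ideal.mem_span_singleton] at hmn'
  rcases (Nat.prime_iff_prime_int.mp hp.out).dvd_mul.mp hmn' with h | h
  · left
    have h2 : m ∈ P.under ℤ := hspan ▸ Ideal.mem_span_singleton.mpr h
    have h3 : (m : A) ∈ P := by simpa using h2
    simpa using P.add_mem hm h3
  · right
    have h2 : n ∈ P.under ℤ := hspan ▸ Ideal.mem_span_singleton.mpr h
    have h3 : (n : A) ∈ P := by simpa using h2
    simpa using P.add_mem hn h3

omit [Finite G] [Algebra.IsInvariant A B H] in
lemma under_smul_of_mem (g : H) (I : Ideal B) : ((g : G) • I).under A = I.under A := by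
  ext a
  rw [Ideal.mem_comap, Ideal.mem_comap, Ideal.mem_pointwise_smul_iff_inv_smul_mem]
  have : (g : G)⁻¹ • algebraMap A B a = algebraMap A B a := smul_algebraMap g⁻¹ a
  rw [this]

variable [SMulCommClass G ℤ B]

omit [SMulCommClass G ℤ B] in
/-- The Frobenius lies in `H` iff the prime below has residue field `𝔽_p`. -/
lemma mem_iff_card_quotient {Q : Ideal B} [Q.IsPrime] [Finite (B ⧸ Q)] {φ : G}
    (hφ : IsFrobMod p φ Q) (hI : Q.inertia G = ⊥) (hQ : Q.under ℤ = Ideal.span {(p : ℤ)}) :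
    φ ∈ H ↔ Nat.card (A ⧸ Q.under A) = p := by
  constructor
  · intro hmem
    set P := Q.under A with hP
    have : Finite (A ⧸ P) := .of_injective _ Ideal.algebraMap_quotient_injective
    let := Fintype.ofFinite (A ⧸ P)
    have hfld : IsField (A ⧸ P) := Finite.isField_of_domain _
    let := hfld.toField
    have hmemp : (p : A) ∈ P := by
      have : (p : ℤ) ∈ Q.under ℤ := hQ ▸ Ideal.mem_span_singleton_self _
      rw [hP, Ideal.mem_comap, map_natCast]
      simpa using this
    have hchar : CharP (A ⧸ P) p := (CharP.charP_iff_prime_eq_zero hp.out).mpr (by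
      rw [← map_natCast (Ideal.Quotient.mk P)]; exact Ideal.Quotient.eq_zero_iff_mem.mpr hmemp)
    have hle : Fintype.card (A ⧸ P) ≤ p := by
      classical
      have hne : (Polynomial.X ^ p - Polynomial.X : Polynomial (A ⧸ P)) ≠ 0 :=
        FiniteField.X_pow_card_sub_X_ne_zero _ hp.out.one_lt
      calc Fintype.card (A ⧸ P)
          ≤ (Polynomial.X ^ p - Polynomial.X : Polynomial (A ⧸ P)).roots.toFinset.card := by
            refine Finset.card_le_card fun x _ => ?_
            obtain ⟨a, rfl⟩ := Ideal.Quotient.mk_surjective x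
            rw [Multiset.mem_toFinset, Polynomial.mem_roots hne]
            simp only [Polynomial.IsRoot, Polynomial.eval_sub, Polynomial.eval_pow,
              Polynomial.eval_X]
            rw [← map_pow, ← map_sub, Ideal.Quotient.eq_zero_iff_mem, hP, Ideal.mem_comap]
            have h1 := hφ (algebraMap A B a)
            have h2 : φ • algebraMap A B a = algebraMap A B a := smul_algebraMap (⟨φ, hmem⟩ : H) a
            rw [h2] at h1
            rw [map_sub, map_pow]
            exact (neg_sub (algebraMap A B a) (algebraMap A B a ^ p)) ▸ Q.neg_mem h1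
        _ ≤ _ := Multiset.toFinset_card_le _
        _ ≤ (Polynomial.X ^ p - Polynomial.X : Polynomial (A ⧸ P)).natDegree :=
            Polynomial.card_roots' _
        _ = p := FiniteField.X_pow_card_sub_X_natDegree_eq _ hp.out.one_lt
    refine le_antisymm (Nat.card_eq_fintype_card.trans_le hle) ?_
    simpa using Nat.card_le_card_of_injective _ (ZMod.castHom_injective (n := p) (A ⧸ P))
  · intro hcard
    obtain ⟨h, hh⟩ := IsArithFrobAt.exists_of_isInvariant (R := A) (G := H) (Q := Q)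
    have : φ = (h : G) := hφ.eq_of_inertia (fun x => by
      have := hh x
      rwa [hcard] at this) hI
    exact this ▸ h.2

omit [SMulCommClass G ℤ B] in
/-- At a degree one prime the decomposition group is contained in `H`. -/
lemma mem_of_smul_eq {Q : Ideal B} [Q.IsPrime] (hI : Q.inertia G = ⊥)
    (hcard : Nat.card (A ⧸ Q.under A) = p) {τ : G} (hτ : τ • Q = Q) : τ ∈ H := by
  let P := Q.under A
  let e : (B ⧸ Q) ≃+* (B ⧸ Q) :=
    Ideal.quotientEquiv Q Q (MulSemiringAction.toRingEquiv G B τ) (by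
      conv_lhs => rw [← hτ, Ideal.pointwise_smul_def]
      rfl)
  let e' : (B ⧸ Q) ≃ₐ[A ⧸ P] (B ⧸ Q) := AlgEquiv.ofRingEquiv (f := e) (fun x => by
    obtain ⟨a, rfl⟩ := Ideal.Quotient.mk_surjective x
    obtain ⟨n, hn⟩ := exists_intCast_sub_mem hcard a
    have : Ideal.Quotient.mk P a = n := by
      rw [← map_intCast (Ideal.Quotient.mk P)]
      exact Ideal.Quotient.eq.mpr hn
    rw [this, map_intCast, map_intCast])
  obtain ⟨h, hh⟩ := Ideal.Quotient.stabilizerHom_surjective H P Q e'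
  have key : τ⁻¹ * (h : G) ∈ Q.inertia G := fun x => by
    have h1 : Ideal.Quotient.mk Q ((h : G) • x) = Ideal.Quotient.mk Q (τ • x) :=
      DFunLike.congr_fun hh (Ideal.Quotient.mk Q x)
    have h2 := Ideal.smul_mem_pointwise_smul τ⁻¹ _ Q (Ideal.Quotient.eq.mp h1)
    rwa [inv_smul_eq_iff.mpr hτ.symm, smul_sub, inv_smul_smul, ← mul_smul] at h2
  rw [hI, Subgroup.mem_bot, inv_mul_eq_one] at key
  exact key ▸ h.1.2

/-- The counting identity between degree one primes of the invariant ring and Frobenius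
conjugates lying in `H`. -/
theorem card_conj_mem_eq [Algebra.IsInvariant ℤ B G] [Algebra.IsIntegral A B]
    (hinj : Function.Injective (algebraMap A B))
    {Q : Ideal B} [Q.IsPrime] (hQ : Q.under ℤ = Ideal.span {(p : ℤ)})
    (hfin : ∀ Q' : Ideal B, Q'.IsPrime → Q'.under ℤ = Ideal.span {(p : ℤ)} → Finite (B ⧸ Q'))
    (hI : ∀ Q' : Ideal B, Q'.IsPrime → Q'.under ℤ = Ideal.span {(p : ℤ)} → Q'.inertia G = ⊥)
    {φ : G} (hφ : IsFrobMod p φ Q) :
    Nat.card {g : G // g * φ * g⁻¹ ∈ H} =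
      Nat.card H * Nat.card {P : Ideal A // Nat.card (A ⧸ P) = p} := by
  have hgQ : ∀ g : G, (g • Q).IsPrime ∧ (g • Q).under ℤ = Ideal.span {(p : ℤ)} := by
    intro g
    refine ⟨inferInstance, ?_⟩
    rw [← hQ]
    ext n
    simp
  have hiff : ∀ g : G, g * φ * g⁻¹ ∈ H ↔ Nat.card (A ⧸ (g • Q).under A) = p := by
    intro g
    obtain ⟨h1, h2⟩ := hgQ g
    have := hfin _ h1 h2
    exact mem_iff_card_quotient H (hφ.conj g) (hI _ h1 h2) h2
  have hlift : ∀ P : {P : Ideal A // Nat.card (A ⧸ P) = p}, ∃ g : G, (g • Q).under A = P.1 := by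
    rintro ⟨P, hP⟩
    obtain ⟨hPp, hPu⟩ := isPrime_of_card_eq hP
    obtain ⟨Q', -, hQ'p, hQ'⟩ := Ideal.exists_ideal_over_prime_of_isIntegral P (⊥ : Ideal B)
      (by rw [Ideal.comap_bot_of_injective _ hinj]; exact bot_le)
    have hu : Q.under ℤ = Q'.under ℤ := by
      rw [hQ, ← hPu, ← hQ', Ideal.under_under]
    obtain ⟨g, rfl⟩ := Algebra.IsInvariant.exists_smul_of_under_eq ℤ B G Q Q' hu
    exact ⟨g, hQ'⟩
  choose g₀ hg₀ using hlift
  rw [← Nat.card_prod]
  refine (Nat.card_eq_of_bijective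
    (fun x : H × {P : Ideal A // Nat.card (A ⧸ P) = p} =>
      (⟨(x.1 : G) * g₀ x.2, (hiff _).mpr (by
        rw [mul_smul, under_smul_of_mem, hg₀]; exact x.2.2)⟩ :
          {g : G // g * φ * g⁻¹ ∈ H})) ⟨?_, ?_⟩).symm
  · rintro ⟨h, P⟩ ⟨h', P'⟩ he
    have he' : (h : G) * g₀ P = (h' : G) * g₀ P' := congrArg Subtype.val he
    have hu : ∀ (k : H) R, (((k : G) * g₀ R) • Q).under A = R.1 := fun k R => by
      rw [mul_smul, under_smul_of_mem, hg₀]
    have : P = P' := Subtype.ext (by rw [← hu h P, ← hu h' P', he'])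
    subst this
    exact Prod.ext (Subtype.ext (mul_right_cancel he')) rfl
  · rintro ⟨g, hg⟩
    let P : {P : Ideal A // Nat.card (A ⧸ P) = p} := ⟨(g • Q).under A, (hiff g).mp hg⟩
    obtain ⟨k, hk⟩ := Algebra.IsInvariant.exists_smul_of_under_eq A B H (g₀ P • Q) (g • Q)
      (hg₀ P)
    have hk' : g • Q = ((k : G) * g₀ P) • Q := by rw [mul_smul]; exact hk
    obtain ⟨h1, h2⟩ := hgQ ((k : G) * g₀ P)
    have hmem : g * ((k : G) * g₀ P)⁻¹ ∈ H := by
      refine mem_of_smul_eq (p := p) (A := A) (Q := ((k : G) * g₀ P) • Q) H (hI _ h1 h2) ?_ ?_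
      · rw [mul_smul, under_smul_of_mem, hg₀]; exact P.2
      · rw [← mul_smul, inv_mul_cancel_right, hk']
    refine ⟨(⟨g * ((k : G) * g₀ P)⁻¹, hmem⟩ * k, P), Subtype.ext ?_⟩
    simp [mul_assoc]

end invariants

section inertia

/-- For all but finitely many primes the inertia groups are trivial. -/
theorem exists_ne_zero_inertia_eq_bot {B : Type*} [CommRing B] [IsDomain B] [CharZero B]
    [Algebra.IsIntegral ℤ B] {G : Type*} [Group G] [MulSemiringAction G B] [Finite G]
    [FaithfulSMul G B] :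
    ∃ d : ℕ, d ≠ 0 ∧ ∀ p : ℕ, p.Prime → ¬ p ∣ d → ∀ Q : Ideal B, Q.IsPrime →
      Q.under ℤ = Ideal.span {(p : ℤ)} → Q.inertia G = ⊥ := by
  classical
  have := Fintype.ofFinite G
  have key : ∀ g : G, ∃ n : ℤ, n ≠ 0 ∧ (g ≠ 1 → ∃ a : B, (n : B) ∈ Ideal.span {g • a - a}) := by
    intro g
    by_cases hg : g = 1
    · exact ⟨1, one_ne_zero, fun h => absurd hg h⟩
    · obtain ⟨a, ha⟩ : ∃ a : B, g • a ≠ a := by
        by_contra! h
        exact hg (FaithfulSMul.eq_of_smul_eq_smul (fun a => by rw [h, one_smul]))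
      have hne : Ideal.span {g • a - a} ≠ ⊥ := by simpa [sub_eq_zero] using ha
      obtain ⟨n, hn, hn0⟩ := Submodule.exists_mem_ne_zero_of_ne_bot
        (Ideal.IsIntegral.comap_ne_bot ℤ hne)
      exact ⟨n, hn0, fun _ => ⟨a, by simpa using hn⟩⟩
  choose n hn0 hn using key
  refine ⟨∏ g, (n g).natAbs, Finset.prod_ne_zero_iff.mpr fun g _ => by simpa using hn0 g, ?_⟩
  intro p hp hdvd Q hQ hQu
  refine (Subgroup.eq_bot_iff_forall _).mpr fun g hg => by_contra fun hg1 => hdvd ?_
  obtain ⟨a, ha⟩ := hn g hg1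
  have hle : Ideal.span {g • a - a} ≤ Q := (Ideal.span_singleton_le_iff_mem _).mpr (hg a)
  have hmem : n g ∈ Q.under ℤ := by simpa using hle ha
  rw [hQu, Ideal.mem_span_singleton, Int.natCast_dvd] at hmem
  exact hmem.trans (Finset.dvd_prod_of_mem _ (Finset.mem_univ g))

end inertia

end Fermat.Agent.Chebotarev
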